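/-
M59 / box [G5], cell (G5-ord-strict) = (O3) (helper6, for helper13 #5682), part 1.  Prefix `m59gd_`.

THE DECOMPOSITION GROUP AND THE LIFTED NODE.
* `m59gd_valuation_apply`  : an element of the decomposition group preserves the valuation
  (algebraic extensions; twin of `inertia_valuation_apply`);
* `m59gd_node_decomp`      : an element `σ` of the decomposition group fixing the coefficients of `W`
  fixes the lifted node `(r, t)` and FIXES OR SWAPS the two slopes `s₁`, `s₂` (residue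
  characteristic `≠ 2`; uniform in the residue characteristic: the second root of
  `6 X² + b₂ X + b₄` would give `2 δ³ = 864 (σ c - c)`, `δ = (s₁ - s₂)²` a unit, `c` small).
-/
import Mathlib
import Fermat.Agent.M59.G5.OrdQ.Node
import Fermat.Agent.S58.Frob.Residue
import Fermat.Agent.S05.Inertia

set_option autoImplicit false

namespace Fermat.Agent.M59

open WeierstrassCurve WeierstrassCurve.Affine Fermat.Agent.S58 Fermat.Agent.S05

section Val

variable {K L : Type*} [Field K] [Field L] [Algebra K L] (A : ValuationSubring L)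

theorem m59gd_apply_mem_iff {σ : L ≃ₐ[K] L} (hσ : σ ∈ A.decompositionSubgroup K) (x : L) :
    σ x ∈ A ↔ x ∈ A := by
  refine ⟨fun h => ?_, fun h => s58fa_mem_of_decomp hσ h⟩
  by_contra hx
  exact s58fa_not_mem_of_decomp hσ hx h

theorem m59gd_valuation_le_one_iff {σ : L ≃ₐ[K] L} (hσ : σ ∈ A.decompositionSubgroup K)
    (x : L) : A.valuation (σ x) ≤ 1 ↔ A.valuation x ≤ 1 := by
  rw [A.valuation_le_one_iff, A.valuation_le_one_iff]
  exact m59gd_apply_mem_iff A hσ x

theorem m59gd_valuation_le_iff {σ : L ≃ₐ[K] L} (hσ : σ ∈ A.decompositionSubgroup K)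
    (x y : L) : A.valuation (σ x) ≤ A.valuation (σ y) ↔ A.valuation x ≤ A.valuation y := by
  by_cases hy : y = 0
  · subst hy
    simp
  have hσy : σ y ≠ 0 := by simpa using hy
  have h1 : A.valuation (σ x) ≤ A.valuation (σ y) ↔ A.valuation (σ (x / y)) ≤ 1 := by
    rw [map_div₀ σ, map_div₀ A.valuation, div_le_one₀ ((Valuation.pos_iff _).mpr hσy)]
  have h2 : A.valuation x ≤ A.valuation y ↔ A.valuation (x / y) ≤ 1 := by
    rw [map_div₀ A.valuation, div_le_one₀ ((Valuation.pos_iff _).mpr hy)]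
  rw [h1, h2]
  exact m59gd_valuation_le_one_iff A hσ _

theorem m59gd_valuation_eq_one_iff {σ : L ≃ₐ[K] L} (hσ : σ ∈ A.decompositionSubgroup K)
    (x : L) : A.valuation (σ x) = 1 ↔ A.valuation x = 1 := by
  rw [le_antisymm_iff, le_antisymm_iff]
  have h1 := m59gd_valuation_le_iff A hσ x 1
  have h2 := m59gd_valuation_le_iff A hσ 1 x
  simp only [map_one] at h1 h2
  rw [h1, h2]

theorem m59gd_valuation_lt_one_iff {σ : L ≃ₐ[K] L} (hσ : σ ∈ A.decompositionSubgroup K)
    (x : L) : A.valuation (σ x) < 1 ↔ A.valuation x < 1 := by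
  rw [← not_le, ← not_le]
  have h2 := m59gd_valuation_le_iff A hσ 1 x
  simp only [map_one] at h2
  rw [h2]

/-- **the decomposition group preserves the valuation** (algebraic extensions). -/
theorem m59gd_valuation_apply [Algebra.IsAlgebraic K L] {σ : L ≃ₐ[K] L}
    (hσ : σ ∈ A.decompositionSubgroup K) (x : L) : A.valuation (σ x) = A.valuation x := by
  by_cases hx0 : x = 0
  · subst hx0; simp
  obtain ⟨n, c, hn, hc, hpow⟩ := exists_pow_valuation_eq_of_isAlgebraic (K := K) A.valuation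
    (Algebra.IsAlgebraic.isAlgebraic x) hx0
  have hc' : algebraMap K L c ≠ 0 := by
    rw [Ne, map_eq_zero_iff _ (algebraMap K L).injective]; exact hc
  have hu : A.valuation (x ^ n / algebraMap K L c) = 1 := by
    rw [map_div₀, map_pow, hpow, div_self ((Valuation.ne_zero_iff _).mpr hc')]
  have hσu : A.valuation (σ (x ^ n / algebraMap K L c)) = 1 :=
    (m59gd_valuation_eq_one_iff A hσ _).mpr hu
  rw [map_div₀, map_pow, σ.commutes, map_div₀, map_pow] at hσu
  have h1 : A.valuation (σ x) ^ n = A.valuation (algebraMap K L c) :=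
    (div_eq_one_iff_eq ((Valuation.ne_zero_iff _).mpr hc')).mp hσu
  have h2 : A.valuation (σ x) ^ n = A.valuation x ^ n := by rw [h1, hpow]
  exact (pow_left_inj hn.ne').mp h2

end Val

section Fixed

variable {S K : Type*} [Field S] [Field K] [Algebra S K] (A : ValuationSubring K) {W : Affine K}
  {r t s₁ s₂ : K}

/-- `c₆` is fixed as soon as the coefficients are -/
theorem m59gd_c6_fixed {σ : K ≃ₐ[S] K} (f₁ : σ W.a₁ = W.a₁) (f₂ : σ W.a₂ = W.a₂)
    (f₃ : σ W.a₃ = W.a₃) (f₄ : σ W.a₄ = W.a₄) (f₆ : σ W.a₆ = W.a₆) : σ W.c₆ = W.c₆ := by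
  simp only [WeierstrassCurve.c₆, WeierstrassCurve.b₂, WeierstrassCurve.b₄, WeierstrassCurve.b₆,
    map_add, map_sub, map_mul, map_pow, map_neg, map_ofNat, f₁, f₂, f₃, f₄, f₆]

/-- **the decomposition group fixes the lifted node, and fixes or swaps its slopes** -/
theorem m59gd_node_decomp (H : m59gq_Node W r t s₁ s₂) (h2 : A.valuation (2 : K) = 1)
    (hs : A.valuation (s₁ - s₂) = 1) (hc : A.valuation (m59gq_c W r t s₁ s₂) < 1)
    {σ : K ≃ₐ[S] K} (hσ : σ ∈ A.decompositionSubgroup S) (f₁ : σ W.a₁ = W.a₁)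
    (f₂ : σ W.a₂ = W.a₂) (f₃ : σ W.a₃ = W.a₃) (f₄ : σ W.a₄ = W.a₄) (f₆ : σ W.a₆ = W.a₆) :
    σ r = r ∧ σ t = t ∧ ((σ s₁ = s₁ ∧ σ s₂ = s₂) ∨ (σ s₁ = s₂ ∧ σ s₂ = s₁)) := by
  have h20 : (2 : K) ≠ 0 := by
    intro h; rw [h, map_zero] at h2; exact zero_ne_one h2
  have hroot := m59gq_node_root H
  have hb2 := m59gq_node_b2 H
  have hc6 := m59gq_node_c6 H
  simp only [WeierstrassCurve.b₂, WeierstrassCurve.b₄] at hroot hb2
  -- `σ r = r`
  have hσroot := congrArg σ hroot
  simp only [map_add, map_mul, map_pow, map_zero, map_ofNat, f₁, f₂, f₃, f₄] at hσroot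
  have hfac : (σ r - r) * ((s₁ - s₂) ^ 2 + 6 * (σ r - r)) = 0 := by
    rw [← hb2]
    linear_combination hσroot - hroot
  have hσc : A.valuation (σ (m59gq_c W r t s₁ s₂)) < 1 :=
    (m59gd_valuation_lt_one_iff A hσ _).mpr hc
  have hne : (s₁ - s₂) ^ 2 + 6 * (σ r - r) ≠ 0 := by
    intro h0
    -- `σ δ = -δ`
    have hσδ : σ ((s₁ - s₂) ^ 2) = -(s₁ - s₂) ^ 2 := by
      rw [← hb2]
      simp only [map_add, map_mul, map_pow, map_ofNat, f₁, f₂]
      linear_combination (2 : K) * h0 + 2 * hb2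
    have hσc6 := congrArg σ hc6
    rw [m59gd_c6_fixed f₁ f₂ f₃ f₄ f₆, map_sub, map_neg, map_pow, hσδ, map_mul, map_ofNat] at hσc6
    have hkey : 2 * ((s₁ - s₂) ^ 2) ^ 3 =
        864 * (σ (m59gq_c W r t s₁ s₂) - m59gq_c W r t s₁ s₂) := by
      linear_combination hc6 - hσc6
    have hl : A.valuation (2 * ((s₁ - s₂) ^ 2) ^ 3) = 1 := by
      rw [map_mul, map_pow, map_pow, h2, hs, one_pow, one_pow, one_mul]
    have hrr : A.valuation (864 * (σ (m59gq_c W r t s₁ s₂) - m59gq_c W r t s₁ s₂)) < 1 := by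
      refine m59gq_small_mul A (ofNat_mem A 864) ?_
      rw [sub_eq_add_neg]
      exact Valuation.map_add_lt _ hσc (by rw [Valuation.map_neg]; exact hc)
    rw [hkey] at hl
    rw [hl] at hrr
    exact lt_irrefl _ hrr
  have hr' : σ r = r := sub_eq_zero.mp ((mul_eq_zero.mp hfac).resolve_right hne)
  -- `σ t = t`
  have ht2 : 2 * t = -(W.a₃ + W.a₁ * r) := by rw [H.ha3, H.ha1]; ring
  have ht' : σ t = t := by
    have h := congrArg σ ht2
    simp only [map_add, map_mul, map_neg, map_ofNat, f₁, f₃, hr'] at h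
    rw [← ht2] at h
    exact mul_left_cancel₀ h20 h
  refine ⟨hr', ht', ?_⟩
  -- the slopes
  have hsum : s₁ + s₂ = -W.a₁ := by rw [H.ha1]; ring
  have hprod : s₁ * s₂ = -W.a₂ - 3 * r := by rw [H.ha2]; ring
  have hσsum : σ s₁ + σ s₂ = s₁ + s₂ := by
    rw [← map_add, hsum, map_neg, f₁]
  have hσprod : σ s₁ * σ s₂ = s₁ * s₂ := by
    rw [← map_mul, hprod, map_sub, map_neg, map_mul, map_ofNat, f₂, hr']
  have hquad : (σ s₁ - s₁) * (σ s₁ - s₂) = 0 := by
    have e : σ s₂ = s₁ + s₂ - σ s₁ := by rw [← hσsum]; ring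
    rw [e] at hσprod
    linear_combination -hσprod
  rcases mul_eq_zero.mp hquad with h | h
  · left
    have h1 : σ s₁ = s₁ := sub_eq_zero.mp h
    refine ⟨h1, ?_⟩
    rw [h1] at hσsum
    exact add_left_cancel hσsum
  · right
    have h1 : σ s₁ = s₂ := sub_eq_zero.mp h
    refine ⟨h1, ?_⟩
    rw [h1] at hσsum
    have : s₂ + σ s₂ = s₂ + s₁ := by rw [hσsum]; ring
    exact add_left_cancel this

end Fixed

end Fermat.Agent.M59
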