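/-
M59 / box [G5], cell (G5-ord-strict) = (O3) (helper6, for helper13 #5682), part 2.  Prefix `m59gd_`.

THE DECOMPOSITION GROUP ACTS BY A SIGN MODULO THE ZERO COMPONENT.
* `m59gd_sub_mem_of_fix`  : `σ` preserving the valuation and `E0`, fixing the lifted node and both
  slopes: `σ • z - z ∈ E0` for EVERY point `z` (the inertia argument of `OrdQ/E0.lean`);
* `m59gd_add_mem_of_swap` : the same with the two slopes SWAPPED: `σ • z + z ∈ E0` for every `z`
  (chord and tangent lemmas at the base point `-z`);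
* `m59gd_decomp_sign`     : for `σ` in the decomposition group there is a sign `χ = ± 1` with
  `σ • z - χ • z ∈ E0` for every point `z`.
-/
import Mathlib
import Fermat.Agent.M59.G5.OrdQ.E0
import Fermat.Agent.M59.G5.OrdS.Decomp

set_option autoImplicit false

namespace Fermat.Agent.M59

open WeierstrassCurve WeierstrassCurve.Affine WeierstrassCurve.Affine.Point IsLocalRing
  Fermat.Agent.S58 Fermat.Agent.S05

section Sign

variable {R₀ S K : Type*} [CommRing R₀] [Field S] [Field K] [DecidableEq K] [Algebra R₀ S]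
  [Algebra R₀ K] [Algebra S K] [IsScalarTower R₀ S K] {W' : Affine R₀} {A : ValuationSubring K}
  [DecidableEq (ResidueField A)] {Wk : Affine (ResidueField A)}

omit [DecidableEq K] in
theorem m59gd_lin_apply_swap {σ : K ≃ₐ[S] K} {r t s s' : K} (hr : σ r = r) (ht : σ t = t)
    (hs : σ s' = s) (x y : K) : m59gq_lin r t s (σ x) (σ y) = σ (m59gq_lin r t s' x y) := by
  simp only [m59gq_lin, map_sub, map_mul, hr, ht, hs]

omit [DecidableEq K] [DecidableEq (ResidueField A)] in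
/-- the smallness of `u`, `w` at a point outside `E0` -/
theorem m59gd_small {r t s₁ s₂ : K} (H : m59gq_Node (W'⁄K) r t s₁ s₂)
    (hs : A.valuation (s₁ - s₂) = 1) (hc : A.valuation (m59gq_c (W'⁄K) r t s₁ s₂) < 1)
    {x y : K} (h : (W'⁄K).Equation x y) (hxr : A.valuation (x - r) < 1) :
    A.valuation (m59gq_lin r t s₁ x y) < 1 ∧ A.valuation (m59gq_lin r t s₂ x y) < 1 := by
  obtain ⟨u, hu⟩ : ∃ u : K, u = m59gq_lin r t s₁ x y := ⟨_, rfl⟩
  obtain ⟨w, hw⟩ : ∃ w : K, w = m59gq_lin r t s₂ x y := ⟨_, rfl⟩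
  have e := (m59gq_equation_iff H x y).mp h
  rw [← hu, ← hw] at e ⊢
  have huw : A.valuation (u * w) < 1 := by
    rw [e]
    refine Valuation.map_add_lt _ ?_ hc
    rw [map_pow]
    exact pow_lt_one₀ zero_le hxr three_ne_zero
  have hd : A.valuation (u - w) < 1 := by
    rw [hu, hw, m59gq_sub_eq, map_mul, ← neg_sub s₁ s₂, Valuation.map_neg, hs, one_mul]
    exact hxr
  have hu1 : A.valuation u < 1 := by
    by_contra hcon
    rw [not_lt] at hcon
    have hwu : A.valuation w = A.valuation u := by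
      have e' : w = u + -(u - w) := by ring
      rw [e', Valuation.map_add_eq_of_lt_left]
      rw [Valuation.map_neg]
      exact lt_of_lt_of_le hd hcon
    rw [map_mul, hwu] at huw
    exact absurd huw (not_lt.mpr (by
      calc (1 : A.ValueGroup) = 1 * 1 := (one_mul 1).symm
        _ ≤ _ := mul_le_mul' hcon hcon))
  have hw1 : A.valuation w < 1 := by
    have e' : w = u + -(u - w) := by ring
    rw [e']
    exact Valuation.map_add_lt _ hu1 (by rw [Valuation.map_neg]; exact hd)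
  exact ⟨hu1, hw1⟩

/-- **fixed slopes**: `σ • z - z ∈ E0` for every point `z`. -/
theorem m59gd_sub_mem_of_fix (hM : s58r_Model A (W'⁄K) Wk) {r t s₁ s₂ : K}
    (H : m59gq_Node (W'⁄K) r t s₁ s₂) (hr : r ∈ A) (ht : t ∈ A)
    (hs : A.valuation (s₁ - s₂) = 1) (hc : A.valuation (m59gq_c (W'⁄K) r t s₁ s₂) < 1)
    {σ : K ≃ₐ[S] K} (hval : ∀ x : K, A.valuation (σ x) = A.valuation x)
    (hE0 : ∀ P ∈ s58r_E0 hM, σ • P ∈ s58r_E0 hM)
    (gr : σ r = r) (gt : σ t = t) (g₁ : σ s₁ = s₁) (g₂ : σ s₂ = s₂)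
    (z : (W'⁄K).Point) : σ • z - z ∈ s58r_E0 hM := by
  by_cases hz : z ∈ s58r_E0 hM
  · exact (s58r_E0 hM).sub_mem (hE0 z hz) hz
  rcases z with _ | ⟨x, y, h⟩
  · exact absurd (s58r_E0 hM).zero_mem hz
  have hxr : A.valuation (x - r) < 1 := by
    by_contra hcon
    exact hz (m59gq_mem_E0 hM H hr ht hc h (not_lt.mp hcon))
  obtain ⟨hu1, hw1⟩ := m59gd_small H hs hc h.1 hxr
  -- the conjugate point
  have hσh : (W'⁄K).Nonsingular (σ x) (σ y) :=
    (W'.baseChange_nonsingular (f := σ.toAlgHom) σ.injective x y).mpr h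
  have hσz : σ • (Point.some x y h : (W'⁄K).Point) = Point.some (σ x) (σ y) hσh :=
    S05.smul_some σ h
  rw [hσz]
  have hu' : A.valuation (m59gq_lin r t s₁ (σ x) (σ y)) = A.valuation (m59gq_lin r t s₁ x y) := by
    rw [m59gq_lin_apply gr gt g₁, hval]
  have hw' : A.valuation (m59gq_lin r t s₂ (σ x) (σ y)) = A.valuation (m59gq_lin r t s₂ x y) := by
    rw [m59gq_lin_apply gr gt g₂, hval]
  by_cases hx : σ x = x
  · by_cases hy : σ y = y
    · -- `σ z = z`
      rw [s58r_some_congr hx hy hσh h, sub_self]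
      exact (s58r_E0 hM).zero_mem
    · -- `σ z = -z`
      have hyn : σ y = (W'⁄K).negY x y := (Y_eq_of_X_eq hσh.1 h.1 hx).resolve_left hy
      have hyne : y ≠ (W'⁄K).negY x y := fun h' => hy (by rw [hyn, ← h'])
      have hneg : (Point.some (σ x) (σ y) hσh : (W'⁄K).Point) = -Point.some x y h := by
        rw [Point.neg_some]
        exact s58r_some_congr hx hyn _ _
      have huw' : A.valuation (m59gq_lin r t s₁ x y) = A.valuation (m59gq_lin r t s₂ x y) := by
        rw [← hu', hx, hyn, m59gq_lin_negY₁ H, Valuation.map_neg]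
      rw [hneg, ← neg_add']
      refine (s58r_E0 hM).neg_mem ?_
      rw [Point.add_self_of_Y_ne hyne]
      refine m59gq_mem_E0 hM H hr ht hc _ ?_
      rw [slope_of_Y_ne rfl hyne]
      exact m59gq_tangent A H hs hu1 huw' hyne
  · -- the chord
    rw [sub_eq_add_neg, Point.neg_some, Point.add_of_X_ne hx]
    refine m59gq_mem_E0 hM H hr ht hc _ ?_
    rw [slope_of_X_ne hx]
    exact m59gq_chord A H hs h.1 hσh.1 hu1 hw1 hu' hw' hx

/-- **swapped slopes**: `σ • z + z ∈ E0` for every point `z`. -/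
theorem m59gd_add_mem_of_swap (hM : s58r_Model A (W'⁄K) Wk) {r t s₁ s₂ : K}
    (H : m59gq_Node (W'⁄K) r t s₁ s₂) (hr : r ∈ A) (ht : t ∈ A)
    (hs : A.valuation (s₁ - s₂) = 1) (hc : A.valuation (m59gq_c (W'⁄K) r t s₁ s₂) < 1)
    {σ : K ≃ₐ[S] K} (hval : ∀ x : K, A.valuation (σ x) = A.valuation x)
    (hE0 : ∀ P ∈ s58r_E0 hM, σ • P ∈ s58r_E0 hM)
    (gr : σ r = r) (gt : σ t = t) (g₁ : σ s₁ = s₂) (g₂ : σ s₂ = s₁)
    (z : (W'⁄K).Point) : σ • z + z ∈ s58r_E0 hM := by
  by_cases hz : z ∈ s58r_E0 hM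
  · exact (s58r_E0 hM).add_mem (hE0 z hz) hz
  rcases z with _ | ⟨x, y, h⟩
  · exact absurd (s58r_E0 hM).zero_mem hz
  have hxr : A.valuation (x - r) < 1 := by
    by_contra hcon
    exact hz (m59gq_mem_E0 hM H hr ht hc h (not_lt.mp hcon))
  obtain ⟨hu1, hw1⟩ := m59gd_small H hs hc h.1 hxr
  -- the conjugate point
  have hσh : (W'⁄K).Nonsingular (σ x) (σ y) :=
    (W'.baseChange_nonsingular (f := σ.toAlgHom) σ.injective x y).mpr h
  have hσz : σ • (Point.some x y h : (W'⁄K).Point) = Point.some (σ x) (σ y) hσh :=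
    S05.smul_some σ h
  rw [hσz]
  -- `lin₁ (σ z) = σ (lin₂ z)`, `lin₂ (σ z) = σ (lin₁ z)`
  have hu' : A.valuation (m59gq_lin r t s₁ (σ x) (σ y)) = A.valuation (m59gq_lin r t s₂ x y) := by
    rw [m59gd_lin_apply_swap gr gt g₂, hval]
  have hw' : A.valuation (m59gq_lin r t s₂ (σ x) (σ y)) = A.valuation (m59gq_lin r t s₁ x y) := by
    rw [m59gd_lin_apply_swap gr gt g₁, hval]
  -- the base point `-z`
  have hneq : (W'⁄K).Equation x ((W'⁄K).negY x y) := (equation_neg x y).mpr h.1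
  have hun : A.valuation (m59gq_lin r t s₁ x ((W'⁄K).negY x y)) =
      A.valuation (m59gq_lin r t s₂ x y) := by
    rw [m59gq_lin_negY₁ H, Valuation.map_neg]
  have hwn : A.valuation (m59gq_lin r t s₂ x ((W'⁄K).negY x y)) =
      A.valuation (m59gq_lin r t s₁ x y) := by
    rw [m59gq_lin_negY₂ H, Valuation.map_neg]
  by_cases hx : σ x = x
  · by_cases hy : σ y = (W'⁄K).negY x y
    · -- `σ z = -z`
      have hneg : (Point.some (σ x) (σ y) hσh : (W'⁄K).Point) = -Point.some x y h := by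
        rw [Point.neg_some]
        exact s58r_some_congr hx hy _ _
      rw [hneg, neg_add_cancel]
      exact (s58r_E0 hM).zero_mem
    · -- `σ z = z`, `2 z`
      have hyy : σ y = y := (Y_eq_of_X_eq hσh.1 h.1 hx).resolve_right hy
      have hyne : y ≠ (W'⁄K).negY x y := fun h' => hy (by rw [hyy, ← h'])
      have huw' : A.valuation (m59gq_lin r t s₁ x y) = A.valuation (m59gq_lin r t s₂ x y) := by
        rw [← hu', hx, hyy]
      rw [s58r_some_congr hx hyy hσh h, Point.add_self_of_Y_ne hyne]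
      refine m59gq_mem_E0 hM H hr ht hc _ ?_
      rw [slope_of_Y_ne rfl hyne]
      exact m59gq_tangent A H hs hu1 huw' hyne
  · -- the chord through `σ z` and `-z`
    rw [Point.add_of_X_ne hx]
    refine m59gq_mem_E0 hM H hr ht hc _ ?_
    rw [slope_of_X_ne hx]
    have hch := m59gq_chord A H hs hneq hσh.1 (by rw [hun]; exact hw1) (by rw [hwn]; exact hu1)
      (by rw [hu', hun]) (by rw [hw', hwn]) hx
    rwa [negY_negY] at hch

variable [Algebra.IsAlgebraic S K]

/-- **the decomposition group acts by a sign modulo `E0`**: for `σ` in the decomposition group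
there is `χ = ± 1` with `σ • z - χ • z ∈ E0` for EVERY point `z`. -/
theorem m59gd_decomp_sign (hM : s58r_Model A (W'⁄K) Wk) {r t s₁ s₂ : K}
    (H : m59gq_Node (W'⁄K) r t s₁ s₂) (hr : r ∈ A) (ht : t ∈ A)
    (hs : A.valuation (s₁ - s₂) = 1) (hc : A.valuation (m59gq_c (W'⁄K) r t s₁ s₂) < 1)
    (h2 : A.valuation (2 : K) = 1) {σ : K ≃ₐ[S] K} (hσ : σ ∈ A.decompositionSubgroup S) :
    ∃ χ : ℤ, (χ = 1 ∨ χ = -1) ∧ ∀ z : (W'⁄K).Point, σ • z - χ • z ∈ s58r_E0 hM := by
  obtain ⟨f₁, f₂, f₃, f₄⟩ := m59gq_coeff_fixed (W' := W') σ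
  have f₆ : σ (W'⁄K).a₆ = (W'⁄K).a₆ := by
    show σ (algebraMap R₀ K W'.a₆) = algebraMap R₀ K W'.a₆
    rw [IsScalarTower.algebraMap_apply R₀ S K, σ.commutes]
  obtain ⟨gr, gt, hsl⟩ := m59gd_node_decomp A H h2 hs hc hσ f₁ f₂ f₃ f₄ f₆
  have hval : ∀ x : K, A.valuation (σ x) = A.valuation x := m59gd_valuation_apply A hσ
  have hE0 : ∀ P ∈ s58r_E0 hM, σ • P ∈ s58r_E0 hM :=
    fun P hP => m59gq_decomp_smul_mem_E0 hM hσ hP
  rcases hsl with ⟨g₁, g₂⟩ | ⟨g₁, g₂⟩
  · refine ⟨1, Or.inl rfl, fun z => ?_⟩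
    rw [one_zsmul]
    exact m59gd_sub_mem_of_fix hM H hr ht hs hc hval hE0 gr gt g₁ g₂ z
  · refine ⟨-1, Or.inr rfl, fun z => ?_⟩
    rw [neg_one_zsmul, sub_neg_eq_add]
    exact m59gd_add_mem_of_swap hM H hr ht hs hc hval hE0 gr gt g₁ g₂ z

end Sign

end Fermat.Agent.M59
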