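/-
M59 / box [G5], cell (G5-ord-strict) = (O3) (helper6, for helper13 #5682), part 3.  Prefix `m59gd_`.

`W / ℤ` semistable, `p` odd, `p ∣ Δ` (multiplicative reduction at `p`), `(ρ_W, π)` a Tate datum,
`det (ρ_W ⊗ 𝒪)` cyclotomic.  Then `ρ_W ⊗_{ℤ_p} 𝒪` is STRICTLY ordinary at `p` (Prelude
`IsStrictOrdinaryAt`): on the line `L ⊗ 𝒪`, `L = m59gq_L` (compatible systems of points of `E0`), the
decomposition group acts on `T_p W / L` through a character with values in `{± 1}`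
(`m59gd_L_decomp_sign`, from `m59gd_decomp_sign`), and on `L` through `ε` times that character.

* `m59gd_L_decomp_sign` : `∀ σ ∈ D_A, ∃ χ = ± 1, ∀ v, ρ_W σ v - χ • v ∈ L`;
* `m59gd_upper`         : the linear algebra: eigenvalue on the line, `det = x χ`;
* `m59gd_strict_of_det` : **(G5-ord-strict)**, binders of `m59gq_ord_of_det`;
* `m59gd_SOrd2_stmt`, `m59gd_sord2` : the seam form (twin of `m59g_Ord2_stmt`).
-/
import Mathlib
import Fermat.Agent.M59.G5.OrdQ.Main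
import Fermat.Agent.M59.G5.OrdS.E0S
import Fermat.Prelude.Def_GaloisRep_StrictOrdinary

set_option autoImplicit false
set_option linter.style.haveILetI false

open scoped TensorProduct

namespace Fermat.Agent.M59

open IsLocalRing Fermat.Agent.S58 Fermat.Agent.S44 Fermat.Agent.JT3

section Lattice

variable {W : WeierstrassCurve ℤ} {p : ℕ} [Fact p.Prime] {ρW : GaloisRepAdic ℤ_[p]}
  {π : ℕ → ρW.V →+ s58_E W} {A : ValuationSubring s58_Qb} [DecidableEq (ResidueField A)]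
  (hT : s58top_IsTate W p ρW π)

/-- **the decomposition group acts on `T_p W / L` by a sign** -/
theorem m59gd_L_decomp_sign (hp2 : p ≠ 2) (hA : A.LiesOverPrime p) (hbad : (p : ℤ) ∣ W.Δ)
    (hc4 : ¬ (p : ℤ) ∣ W.c₄) {σ : s58_G} (hσ : σ ∈ A.decompositionSubgroup ℚ) :
    ∃ χ : ℤ, (χ = 1 ∨ χ = -1) ∧ ∀ v : ρW.V, ρW.ρ σ v - χ • v ∈ m59gq_L A hT := by
  obtain ⟨r, t, s₁, s₂, H, hr, ht, hs, hcc, h2⟩ :=
    m59gq_nodeData (Fact.out : p.Prime) hp2 hA hbad hc4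
  have _ : Algebra.IsAlgebraic ℚ s58_Qb := AlgebraicClosure.isAlgebraic ℚ
  obtain ⟨χ, hχ, hz⟩ := m59gd_decomp_sign (s58m_model W A) H hr ht hs hcc h2 hσ
  refine ⟨χ, hχ, fun v n => ?_⟩
  rw [map_sub, hT.gal, map_zsmul]
  exact hz _

end Lattice

section LinAlg

variable {R V : Type*} [CommRing R] [AddCommGroup V] [Module R V]

/-- an endomorphism stabilising the line `R ∙ b 0` and acting by `z` modulo it: its eigenvalue on
the line and its determinant. -/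
theorem m59gd_upper (b : Module.Basis (Fin 2) R V) (f : V →ₗ[R] V) (z : R)
    (hD : ∀ v ∈ (R ∙ b 0), f v ∈ (R ∙ b 0)) (hq : ∀ v : V, f v - z • v ∈ (R ∙ b 0)) :
    ∃ x : R, f (b 0) = x • b 0 ∧ LinearMap.det f = x * z := by
  obtain ⟨x, hx⟩ := Submodule.mem_span_singleton.mp (hD _ (Submodule.mem_span_singleton_self _))
  obtain ⟨y, hy⟩ := Submodule.mem_span_singleton.mp (hq (b 1))
  refine ⟨x, hx.symm, ?_⟩
  have h1 : f (b 1) = y • b 0 + z • b 1 := by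
    rw [hy]; abel
  rw [← LinearMap.det_toMatrix b, Matrix.det_fin_two]
  simp only [LinearMap.toMatrix_apply, ← hx, h1, map_add, map_smul, Module.Basis.repr_self,
    Finsupp.add_apply, Finsupp.smul_apply, Finsupp.single_apply, smul_eq_mul]
  simp

end LinAlg

/-- **base change of a strictly ordinary line**: the data at one `σ` -/
theorem m59gd_baseChange_at {A B : Type} [CommRing A] [IsLocalRing A] [CommRing B]
    [IsLocalRing B] (φ : A →+* B) (hφ : IsLocalHom φ) (ρ : GaloisRepAdic A)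
    (b : Module.Basis (Fin 2) A ρ.V) (σ : s58_G) (x z : A)
    (hx : ρ.ρ σ (b 0) = x • b 0) (hq : ∀ v : ρ.V, ρ.ρ σ v - z • v ∈ (A ∙ b 0)) :
    letI : Algebra A B := φ.toAlgebra
    (∀ w ∈ (B ∙ (Algebra.TensorProduct.basis B b) 0 : Submodule B (B ⊗[A] ρ.V)),
      (ρ.baseChangeAlong φ hφ).ρ σ w = φ x • w) ∧
    (∀ v : (ρ.baseChangeAlong φ hφ).V, (ρ.baseChangeAlong φ hφ).ρ σ v - φ z • v ∈
      (B ∙ (Algebra.TensorProduct.basis B b) 0 : Submodule B (B ⊗[A] ρ.V))) := by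
  letI : Algebra A B := φ.toAlgebra
  set b' : Module.Basis (Fin 2) B (B ⊗[A] ρ.V) := Algebra.TensorProduct.basis B b with hb'
  have hb'0 : b' 0 = (1 : B) ⊗ₜ[A] b 0 := Algebra.TensorProduct.basis_apply b 0
  have hmem : ∀ (c : B) (v : ρ.V), v ∈ (A ∙ b 0) → c ⊗ₜ[A] v ∈ (B ∙ b' 0) := by
    intro c v hv
    obtain ⟨a, rfl⟩ := Submodule.mem_span_singleton.mp hv
    have e : c ⊗ₜ[A] (a • b 0) = (c * algebraMap A B a) • b' 0 := by
      rw [hb'0, TensorProduct.smul_tmul', smul_eq_mul, mul_one, TensorProduct.tmul_smul,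
        ← algebraMap_smul B a (c ⊗ₜ[A] b 0), TensorProduct.smul_tmul', smul_eq_mul, mul_comm]
    rw [e]
    exact Submodule.smul_mem _ _ (Submodule.mem_span_singleton_self _)
  have hsm : ∀ (a : A) (c : B) (v : ρ.V), c ⊗ₜ[A] (a • v) = φ a • (c ⊗ₜ[A] v) := by
    intro a c v
    rw [TensorProduct.tmul_smul, ← algebraMap_smul B a (c ⊗ₜ[A] v)]
    rfl
  refine ⟨fun w hw => ?_, fun (v : B ⊗[A] ρ.V) => ?_⟩
  · obtain ⟨c, rfl⟩ := Submodule.mem_span_singleton.mp hw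
    show (ρ.ρ σ).baseChange B (c • b' 0) = φ x • c • b' 0
    rw [map_smul, smul_comm]
    congr 1
    rw [hb'0, LinearMap.baseChange_tmul, hx, hsm]
  · show (ρ.ρ σ).baseChange B v - φ z • v ∈ B ∙ b' 0
    induction v using TensorProduct.induction_on with
    | zero => rw [LinearMap.map_zero, smul_zero, sub_zero]; exact Submodule.zero_mem _
    | tmul c w =>
      rw [LinearMap.baseChange_tmul, ← hsm, ← TensorProduct.tmul_sub]
      exact hmem c _ (hq w)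
    | add u v hu hv =>
      rw [LinearMap.map_add, smul_add, add_sub_add_comm]
      exact Submodule.add_mem _ hu hv

/-- **(G5-ord-strict)** = (O3): `ρ_W ⊗ 𝒪` is strictly ordinary at a prime of multiplicative
reduction (the unramified quotient character has values in `{± 1}`). -/
theorem m59gd_strict_of_det (p : ℕ) [Fact p.Prime] (hp2 : p ≠ 2) (W : WeierstrassCurve ℤ)
    (hΔ : W.Δ ≠ 0) (hss : W.IsSemistableModel) (hbad : ¬ W.IsGoodPrimeFor p)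
    (ρW : GaloisRepAdic ℤ_[p]) (π : ℕ → ρW.V →+ s58_E W) (hT : s58top_IsTate W p ρW π)
    (𝒪 : Type) [CommRing 𝒪] [IsDomain 𝒪] [IsDiscreteValuationRing 𝒪]
    [IsAdicComplete (maximalIdeal 𝒪) 𝒪] (hp : (p : 𝒪) ∈ maximalIdeal 𝒪)
    (hdet : (m59g_rho p 𝒪 hp ρW).DetIsCyclotomic p) :
    (m59g_rho p 𝒪 hp ρW).IsStrictOrdinaryAt p := by
  classical
  refine ⟨hp, fun P hP => ?_⟩
  have hpp : p.Prime := Fact.out
  have hbad' : (p : ℤ) ∣ W.Δ := not_not.mp hbad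
  have hc4 : ¬ (p : ℤ) ∣ W.c₄ := hss p hpp hbad'
  -- the determinant of `ρ_W` is nontrivial on the inertia group
  have hdetW : ∃ σ ∈ P.inertiaSubgroupIn ℚ, LinearMap.det (ρW.ρ σ) ≠ 1 := by
    have : NeZero ((p : ℕ) : s58_Qb) := ⟨by exact_mod_cast hpp.ne_zero⟩
    obtain ⟨ζ, hζ⟩ := HasEnoughRootsOfUnity.exists_primitiveRoot s58_Qb p
    obtain ⟨σ₀, hσ₀, k₀, hk₀, hne⟩ := s44c_chiRam p hp2 P hP ζ hζ
    refine ⟨σ₀, hσ₀, fun h1 => ?_⟩
    have hμ : ∀ μ : AlgebraicClosure ℚ, μ ^ p ^ 1 = 1 → σ₀ μ = μ ^ k₀ := by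
      intro μ hμ
      rw [pow_one] at hμ
      obtain ⟨i, -, rfl⟩ := hζ.eq_pow_of_pow_eq_one hμ
      rw [map_pow, hk₀, ← pow_mul, ← pow_mul, mul_comm]
    have h2 := hdet.2 1 σ₀ k₀ hμ
    rw [m59g_rho, s58top_baseChange_det, h1, map_one, pow_one] at h2
    have h3 : ((1 - (k₀ : ℤ) : ℤ) : 𝒪) ∈ Ideal.span {(p : 𝒪)} := by
      push_cast
      exact h2
    refine m59gq_not_mem_span hpp hp (fun hdvd => hne ?_) h3
    exact Int.modEq_iff_dvd.mpr hdvd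
  -- the line
  have hsat := fun v => m59gq_L_sat (A := P) hT (v := v)
  have hnb := m59gq_L_ne_bot (A := P) hT hp2 hP hbad' hc4 hdetW
  have hnt := m59gq_L_ne_top (A := P) hT hp2 hP hΔ hbad' hc4
  obtain ⟨b, hb⟩ := m59gq_exists_basis (Module.finBasisOfFinrankEq ℤ_[p] ρW.V ρW.finrank_eq)
    PadicInt.irreducible_p (m59gq_L P hT) hsat hnb hnt
  have hD : ∀ σ ∈ P.decompositionSubgroup ℚ, ∀ v ∈ (ℤ_[p] ∙ b 0), ρW.ρ σ v ∈ (ℤ_[p] ∙ b 0) := by
    intro σ hσ v hv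
    rw [← hb] at hv ⊢
    exact m59gq_L_decomp hT hσ hv
  have hI : ∀ σ ∈ P.inertiaSubgroupIn ℚ, ∀ v : ρW.V, ρW.ρ σ v - v ∈ (ℤ_[p] ∙ b 0) := by
    intro σ hσ v
    rw [← hb]
    exact m59gq_L_inertia hT hp2 hP hbad' hc4 hσ v
  -- the data at every element of the decomposition group
  have hsign : ∀ σ ∈ P.decompositionSubgroup ℚ, ∃ x z : ℤ_[p], z * z = 1 ∧
      ρW.ρ σ (b 0) = x • b 0 ∧ (∀ v : ρW.V, ρW.ρ σ v - z • v ∈ (ℤ_[p] ∙ b 0)) ∧
      LinearMap.det (ρW.ρ σ) = x * z := by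
    intro σ hσ
    obtain ⟨χ, hχ, hχv⟩ := m59gd_L_decomp_sign hT hp2 hP hbad' hc4 hσ
    have hq : ∀ v : ρW.V, ρW.ρ σ v - (χ : ℤ_[p]) • v ∈ (ℤ_[p] ∙ b 0) := by
      intro v
      rw [← hb, Int.cast_smul_eq_zsmul]
      exact hχv v
    obtain ⟨x, hx, hdx⟩ := m59gd_upper b (ρW.ρ σ) (χ : ℤ_[p]) (hD σ hσ) hq
    refine ⟨x, (χ : ℤ_[p]), ?_, hx, hq, hdx⟩
    rcases hχ with rfl | rfl <;> norm_num
  set φ := cya_padicHom p 𝒪 hp with hφdef
  have hφ : IsLocalHom φ := s58top_padicHom_isLocalHom p 𝒪 hp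
  letI : Algebra ℤ_[p] 𝒪 := φ.toAlgebra
  refine ⟨(𝒪 ∙ (Algebra.TensorProduct.basis 𝒪 b) 0 : Submodule 𝒪 (𝒪 ⊗[ℤ_[p]] ρW.V)),
    ⟨Algebra.TensorProduct.basis 𝒪 b, rfl⟩, fun σ hσ w hw => ?_, fun σ hσ v => ?_,
    fun σ hσ => ?_⟩
  · obtain ⟨x, z, -, hx, hq, -⟩ := hsign σ hσ
    have h1 := (m59gd_baseChange_at φ hφ ρW b σ x z hx hq).1 w hw
    rw [show (m59g_rho p 𝒪 hp ρW).ρ σ w = φ x • w from h1]
    exact Submodule.smul_mem _ _ hw
  · have hσD : σ ∈ P.decompositionSubgroup ℚ := by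
      unfold ValuationSubring.inertiaSubgroupIn at hσ
      rw [Subgroup.mem_map] at hσ
      obtain ⟨τ, -, rfl⟩ := hσ
      exact τ.2
    obtain ⟨x, z, -, hx, -, -⟩ := hsign σ hσD
    have hq1 : ∀ v : ρW.V, ρW.ρ σ v - (1 : ℤ_[p]) • v ∈ (ℤ_[p] ∙ b 0) := by
      intro v
      rw [one_smul]
      exact hI σ hσ v
    have h1 := (m59gd_baseChange_at φ hφ ρW b σ x 1 hx hq1).2 v
    rw [map_one, one_smul] at h1
    exact h1
  · obtain ⟨x, z, hzz, hx, hq, hdx⟩ := hsign σ hσ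
    obtain ⟨h1, h2⟩ := m59gd_baseChange_at φ hφ ρW b σ x z hx hq
    refine ⟨φ x, φ z, h1, h2, fun n a ha => ?_⟩
    have h3 := hdet.2 n σ a ha
    rw [m59g_rho, s58top_baseChange_det, hdx, map_mul] at h3
    have hzz' : φ z * φ z = 1 := by rw [← map_mul, hzz, map_one]
    have e : φ x - (a : 𝒪) * φ z = φ z * (φ x * φ z - (a : 𝒪)) := by
      linear_combination (-φ x) * hzz'
    rw [e]
    exact Ideal.mul_mem_left _ _ h3

/-- **(G5-ord-strict)**, the seam form: twin of `m59g_Ord2_stmt` with `IsStrictOrdinaryAt`. -/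
def m59gd_SOrd2_stmt : Prop :=
  ∀ (p : ℕ) [Fact p.Prime], p ≠ 2 → ∀ W : WeierstrassCurve ℤ, W.Δ ≠ 0 →
    W.IsSemistableModel → ¬ W.IsGoodPrimeFor p →
  ∀ (ρW : GaloisRepAdic ℤ_[p]) (π : ℕ → ρW.V →+ s58_E W), s58top_IsTate W p ρW π →
  ∀ (𝒪 : Type) [CommRing 𝒪] [IsDomain 𝒪] [IsDiscreteValuationRing 𝒪]
    [IsAdicComplete (maximalIdeal 𝒪) 𝒪] [Finite (ResidueField 𝒪)] [CharZero 𝒪]
    (hp : (p : 𝒪) ∈ maximalIdeal 𝒪), (m59g_rho p 𝒪 hp ρW).DetIsCyclotomic p →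
    (m59g_rho p 𝒪 hp ρW).IsStrictOrdinaryAt p

/-- **(G5-ord-strict) CLOSED.** -/
theorem m59gd_sord2 : m59gd_SOrd2_stmt :=
  fun p _ hp2 W hΔ hss hb ρW π hT 𝒪 _ _ _ _ _ _ hp hdet =>
    m59gd_strict_of_det p hp2 W hΔ hss hb ρW π hT 𝒪 hp hdet

end Fermat.Agent.M59
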