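/-
M59 / box [G5] (helper6): [G5] WITH THE STRICT-ORDINARY CONJUNCT = (O3), CLOSED.  Prefix `m59gd_`.

`m59gd_G5zS_stmt` : the seam `m59g_G5z_stmt` (= `m59e_G5z_stmt`) with ONE more conjunct in the
conclusion: at a prime `p` of bad (= multiplicative) reduction, `ρ` is STRICTLY ordinary at `p`
(Prelude `IsStrictOrdinaryAt`: the unramified quotient character of `ρ|_{D_p}` has square one and
the sub character is `ε` times it).  `m59gd_G5zS : m59gd_G5zS_stmt` is a THEOREM (the SAME `𝒪`, `ρ`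
as in `m59gq_G5z`: `ρ = ρ_W ⊗ 𝒪`), from `m59gd_strict_of_det` and the closed cells of [G5].

Threading options for the consumers ([CORE] case (III), helper13 #5682 (3)/(4)):
* `m59gd_G5zS` gives `m59e_IsTate p W ρ ∧ (¬ W.IsGoodPrimeFor p → ρ.IsStrictOrdinaryAt p)`;
* `m59gd_G5z_of_S : m59gd_G5zS_stmt → m59g_G5z_stmt` forgets the conjunct.
-/
import Mathlib
import Fermat.Agent.M59.G5.OrdS.Main
import Fermat.Agent.M59.G5.OrdQ.Closed

set_option autoImplicit false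
set_option linter.style.haveILetI false

open Polynomial IsLocalRing WeierstrassCurve

noncomputable section

namespace Fermat.Agent.M59

open Fermat.Agent.TW Fermat.Agent.S58 Fermat.Agent.JT3

/-- **[G5], issue 3**: `m59g_G5z_stmt` with the strict-ordinary conjunct at the bad `p`. -/
def m59gd_G5zS_stmt : Prop :=
  ∀ (p : ℕ) [Fact p.Prime], p = 3 ∨ p = 5 → ∀ W : WeierstrassCurve ℤ, W.Δ ≠ 0 →
    W.IsSemistableModel → W.ModRepIsIrreducible p →
    ∃ (𝒪 : Type) (_ : CommRing 𝒪) (_ : IsDomain 𝒪) (_ : IsDiscreteValuationRing 𝒪)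
      (_ : IsAdicComplete (maximalIdeal 𝒪) 𝒪) (_ : Finite (ResidueField 𝒪)) (_ : CharZero 𝒪)
      (ρ : GaloisRepAdic 𝒪), (p : 𝒪) ∈ maximalIdeal 𝒪 ∧ (∃ ζ : 𝒪, IsPrimitiveRoot ζ p) ∧
        m59e_IsTate p W ρ ∧ (¬ W.IsGoodPrimeFor p → ρ.IsStrictOrdinaryAt p)

theorem m59gd_G5z_of_S (h : m59gd_G5zS_stmt) : m59g_G5z_stmt := by
  intro p _ hp35 W hΔ hss hirr
  obtain ⟨𝒪, i1, i2, i3, i4, i5, i6, ρ, hp, hζ, hT, -⟩ := h p hp35 W hΔ hss hirr
  exact ⟨𝒪, i1, i2, i3, i4, i5, i6, ρ, hp, hζ, hT⟩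

/-- **[G5], issue 3, CLOSED.** -/
theorem m59gd_G5zS : m59gd_G5zS_stmt := by
  intro p _ hp35 W hΔ hss hirr
  have hp2 : p ≠ 2 := by rcases hp35 with rfl | rfl <;> norm_num
  obtain ⟨𝒪, _, _, _, _, _, _, hp, hζ, hQ⟩ := m59g_coeff2 p
  obtain ⟨ρW, π, hT⟩ := s58top_exists_tate s58t_tateSeam W hΔ p hp2
  have hA := m59ga_away p hp2 W hΔ hss hirr ρW π hT 𝒪 hp
  refine ⟨𝒪, inferInstance, inferInstance, inferInstance, inferInstance, inferInstance,
    inferInstance, m59g_rho p 𝒪 hp ρW, hp, hζ, ?_, ?_⟩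
  · exact
      { det := hA.det
        unram := hA.unram
        frob := hA.frob
        frobRes := hA.frobRes
        unip := hA.unip
        flat := fun hg => m59gs_flat2 p hp2 W hΔ hg ρW π hT 𝒪 hp
        ord := fun hb => m59gq_ord2 p hp2 W hΔ hss hb ρW π hT 𝒪 hp hA.det
        irr := hA.irr
        tw := m59tw_tw2z m59gs_flat2 m59gq_ord2 p hp35 W hΔ hss hirr ρW π hT 𝒪 hp hQ hA
        split := m59ga_split p ρW 𝒪 hp hQ
        nonEis := m59ga_nonEis p hp2 W hΔ hss hirr ρW π hT 𝒪 hp hA }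
  · exact fun hb => m59gd_strict_of_det p hp2 W hΔ hss hb ρW π hT 𝒪 hp hA.det

end Fermat.Agent.M59
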