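/-
M59 / box [G5] (helper6): THE SEAM `m59e_G5zS_stmt` OF `M59/Top/EngS.lean` (chief's ruling #5704,
issue 3 of the engine) IS CLOSED.  Prefix `m59g_` / `m59gd_`.

`m59e_G5zS_stmt` is literally `m59gd_G5zS_stmt` (`M59/G5/OrdS/Closed.lean`): [G5] with the conjunct
`¬ W.IsGoodPrimeFor p → ρ.IsStrictOrdinaryAt p` = (O3).
-/
import Mathlib
import Fermat.Agent.M59.G5.OrdS.Closed
import Fermat.Agent.M59.Top.EngS

set_option autoImplicit false

namespace Fermat.Agent.M59

/-- **[G5], issue 3 (the seam of `Top/EngS.lean`), CLOSED.** -/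
theorem m59g_G5zS_closed : m59e_G5zS_stmt := m59gd_G5zS

end Fermat.Agent.M59
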